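import Fermat.Agent.MR.Glue.BLRGal
import Fermat.Agent.Lib.Frobenius

/-!
# S43 / Maz / Abs : abstract form of block MAZ (Mazur's principle in the hypothetical world)

* `exists_common_kernel` : commuting locally nilpotent operators on a nonzero stable subgroup of a finite group have a common
  nonzero kernel vector;
* `d_of_scalar`, `dP_of_scalar` : an element of `G_ℚ` acting as the scalar `r` on an irreducible non cyclic `FrobMod` has
  cyclotomic character `r²` (no Weil pairing);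
* `main_abs` : `E` an irreducible non cyclic `FrobMod`, unramified at `q ≠ p`; `V` a `G_ℚ`-module killed by `p` with an involution `w`
  commuting with `G_ℚ`; `X ≤ V` nonzero, stable; every nonzero `w`-eigenpart of `X` contains a copy of `E`; `φ = - q w` on the
  inertia-fixed elements of `X`.  Then `p ∣ q - 1` and there is a sign `e` with `φ = e` on `E`, `w = - e` on `X`, `φ = e` on the
  inertia-fixed elements of `X`.
-/

set_option autoImplicit false

namespace Fermat.Agent.S43.Maz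

open Fermat.Agent.GAL Fermat.Agent.MR.Glue

/-! ### commuting locally nilpotent operators -/

theorem exists_common_kernel {ι X : Type*} [AddCommGroup X] [Finite X] (D : ι → AddMonoid.End X)
    (hcomm : ∀ i j, Commute (D i) (D j)) (Y : AddSubgroup X) (hY0 : Y ≠ ⊥)
    (hst : ∀ i, ∀ y ∈ Y, D i y ∈ Y) (hnil : ∀ i, ∀ y ∈ Y, ∃ n : ℕ, (D i ^ n) y = 0) :
    ∃ y ∈ Y, y ≠ 0 ∧ ∀ i, D i y = 0 := by
  classical
  let 𝒮 : Set (AddSubgroup X) := {Z | Z ≤ Y ∧ Z ≠ ⊥ ∧ ∀ i, ∀ z ∈ Z, D i z ∈ Z}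
  have hne : 𝒮.Nonempty := ⟨Y, le_rfl, hY0, hst⟩
  obtain ⟨Z, ⟨hZY, hZ0, hZst⟩, hmin⟩ :=
    WellFounded.has_min (wellFounded_lt (α := AddSubgroup X)) 𝒮 hne
  have hker : ∀ i, ∀ z ∈ Z, D i z = 0 := by
    intro i
    have hpow : ∀ (n : ℕ), ∀ z ∈ Z, (D i ^ n) z ∈ Z := by
      intro n
      induction n with
      | zero => intro z hz; simpa using hz
      | succ n ih =>
        intro z hz
        rw [pow_succ']
        exact hZst i _ (ih z hz)
    have hmem : Z ⊓ (D i : X →+ X).ker ∈ 𝒮 := by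
      refine ⟨inf_le_left.trans hZY, ?_, ?_⟩
      · obtain ⟨⟨z, hz⟩, hz0⟩ := AddSubgroup.ne_bot_iff_exists_ne_zero.mp hZ0
        have hz0' : z ≠ 0 := fun h0 => hz0 (Subtype.ext h0)
        have hex := hnil i z (hZY hz)
        have hn0 : Nat.find hex ≠ 0 := by
          intro h0
          have := Nat.find_spec hex
          rw [h0, pow_zero] at this
          exact hz0' this
        obtain ⟨m, hm⟩ := Nat.exists_eq_succ_of_ne_zero hn0
        have h1 : (D i ^ m) z ≠ 0 := Nat.find_min hex (by omega)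
        have h2 : D i ((D i ^ m) z) = 0 := by
          have := Nat.find_spec hex
          rw [hm, Nat.succ_eq_add_one, pow_succ'] at this
          exact this
        intro hbot
        apply h1
        have : (D i ^ m) z ∈ Z ⊓ (D i : X →+ X).ker := ⟨hpow m z hz, h2⟩
        rwa [hbot, AddSubgroup.mem_bot] at this
      · rintro j z ⟨hz, hz'⟩
        refine ⟨hZst j z hz, ?_⟩
        have h3 : D i (D j z) = D j (D i z) := DFunLike.congr_fun (hcomm i j).eq z
        show D i (D j z) = 0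
        rw [h3]
        have : D i z = 0 := hz'
        rw [this, map_zero]
    have hle : Z ⊓ (D i : X →+ X).ker ≤ Z := inf_le_left
    have heq : Z ⊓ (D i : X →+ X).ker = Z := eq_of_le_of_not_lt hle (hmin _ hmem)
    intro z hz
    have : z ∈ Z ⊓ (D i : X →+ X).ker := by rw [heq]; exact hz
    exact this.2
  obtain ⟨⟨z, hz⟩, hz0⟩ := AddSubgroup.ne_bot_iff_exists_ne_zero.mp hZ0
  exact ⟨z, hZY hz, fun h0 => hz0 (Subtype.ext h0), fun i => hker i z hz⟩

/-! ### the determinant of a scalar element -/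

theorem d_of_scalar {k G E : Type*} [Field k] [Group G] [AddCommGroup E] [Module k E] [Nontrivial E]
    (ρE : G →* Module.End k E) (d : G →* k)
    (hq : ∀ g, ∃ a : k, ρE g * ρE g - a • ρE g + d g • (1 : Module.End k E) = 0)
    (g₀ : G) (hg₀ : ∀ r : k, ρE g₀ ≠ r • 1) (z : G) (r : k) (hz : ρE z = r • 1) : d z = r * r := by
  obtain ⟨a₀, h₀⟩ := hq g₀
  obtain ⟨a₁, h₁⟩ := hq (z * g₀)
  rw [map_mul, map_mul, hz, smul_mul_assoc, one_mul, smul_mul_assoc, mul_smul_comm, smul_smul,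
    smul_smul] at h₁
  have hd0 : d g₀ ≠ 0 := by
    intro h
    have : d g₀ * d g₀⁻¹ = 1 := by rw [← map_mul, mul_inv_cancel, map_one]
    rw [h, zero_mul] at this
    exact zero_ne_one this
  have h2 : (r * r * a₀ - a₁ * r) • ρE g₀ = ((r * r - d z) * d g₀) • (1 : Module.End k E) := by
    have h3 : (r * r * a₀ - a₁ * r) • ρE g₀ - ((r * r - d z) * d g₀) • (1 : Module.End k E) =
        ((r * r) • (ρE g₀ * ρE g₀) - (a₁ * r) • ρE g₀ + (d z * d g₀) • (1 : Module.End k E))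
          - (r * r) • (ρE g₀ * ρE g₀ - a₀ • ρE g₀ + d g₀ • (1 : Module.End k E)) := by
      module
    rw [← sub_eq_zero, h3, h₁, h₀, smul_zero, sub_zero]
  by_cases hc : r * r * a₀ - a₁ * r = 0
  · rw [hc, zero_smul] at h2
    have h4 := (smul_eq_zero.mp h2.symm).resolve_right one_ne_zero
    have h5 := (mul_eq_zero.mp h4).resolve_right hd0
    exact (sub_eq_zero.mp h5).symm
  · exfalso
    apply hg₀ ((r * r * a₀ - a₁ * r)⁻¹ * ((r * r - d z) * d g₀))
    rw [mul_smul, ← h2, smul_smul, inv_mul_cancel₀ hc, one_smul]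

theorem not_scalar_of_invol {k E : Type*} [Field k] [AddCommGroup E] [Module k E] [Nontrivial E]
    (C : Module.End k E) (h2 : (C - 1) * (C - (-1 : k) • 1) = 0) (h3 : C ≠ 1) (h4 : C ≠ (-1 : k) • 1)
    (s : k) : C ≠ s • 1 := by
  intro hs
  rw [hs] at h2
  have h5 : ((s - 1) * (s + 1)) • (1 : Module.End k E) = 0 := by
    rw [← h2]
    have : (s • (1 : Module.End k E) - 1) * (s • (1 : Module.End k E) - (-1 : k) • 1)
        = ((s - 1) • (1 : Module.End k E)) * ((s + 1) • (1 : Module.End k E)) := by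
      congr 1 <;> module
    rw [this, smul_mul_assoc, one_mul, smul_smul]
  rcases mul_eq_zero.mp ((smul_eq_zero.mp h5).resolve_right one_ne_zero) with h6 | h6
  · apply h3
    rw [hs, sub_eq_zero.mp h6, one_smul]
  · apply h4
    rw [hs, eq_neg_of_add_eq_zero_left h6]

/-- the cyclotomic character of an element acting as a scalar on an irreducible non cyclic `FrobMod`. -/
theorem dP_of_scalar {p : ℕ} [Fact p.Prime] (hFD : FrobeniusDensity) (hp2 : p ≠ 2) {a : ℕ → ℤ}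
    {B : Finset ℕ} {E : Type*} [AddCommGroup E] [DistribMulAction GQ E] (hE : FrobMod p a B E)
    (hirr : ∀ U : AddSubgroup E, (∀ σ : GQ, ∀ x ∈ U, σ • x ∈ U) → U = ⊥ ∨ U = ⊤)
    (hdim : ∀ v : E, ∃ u : E, ∀ n : ℤ, u ≠ n • v) (z : GQ) (r : ℤ) (hz : ∀ x : E, z • x = r • x) :
    dP p z = (r : ZMod p) * r := by
  let _ : Module (ZMod p) E := AddCommGroup.zmodModule hE.tors
  have hnt : Nontrivial E := by
    obtain ⟨u, hu⟩ := hdim 0
    exact ⟨u, 0, fun h => hu 0 (by rw [h, smul_zero])⟩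
  obtain ⟨c, hcc, hc⟩ := Cyclo.exists_conj
  have hdc : dP p c = -1 := by
    change ((Cyclo.epsK p (ZMod p) c : (ZMod p)ˣ) : ZMod p) = -1
    rw [Cyclo.epsK_eq_neg_one p (ZMod p) (hc p)]
    simp
  obtain ⟨-, h2, h3, h4⟩ := conj_props (repOf p E) (dP p) (two_ne_zero_zmod hp2)
    (fun g => (common_quad hFD hE hE g).imp fun _ h => h.1)
    (irr_submodule hirr) (dim_submodule hdim) c hcc hdc
  rw [hdc] at h2 h4
  refine d_of_scalar (repOf p E) (dP p) (fun g => (common_quad hFD hE hE g).imp fun _ h => h.1) c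
    (not_scalar_of_invol _ h2 h3 h4) z r ?_
  apply LinearMap.ext
  intro x
  rw [repOf_apply, hz, LinearMap.smul_apply, Module.End.one_apply, Int.cast_smul_eq_zsmul]

/-! ### the abstract theorem -/

theorem nsmul_eq_self_of_dvd {Y : Type*} [AddCommGroup Y] {p n : ℕ} (hn : 0 < n) (h : p ∣ n - 1) (y : Y)
    (hy : p • y = 0) : n • y = y := by
  obtain ⟨c, hc⟩ := h
  have h1 : n = c * p + 1 := by rw [mul_comm, ← hc]; omega
  rw [h1, add_smul, mul_smul, hy, smul_zero, zero_add, one_smul]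

/-- the `ε`-eigenspace of `w` in `X`. -/
def signPart {V : Type*} [AddCommGroup V] (w : V →+ V) (X : AddSubgroup V) (ε : ℤ) : AddSubgroup V where
  carrier := {x | x ∈ X ∧ w x = ε • x}
  add_mem' := by
    rintro x y ⟨hx, hx'⟩ ⟨hy, hy'⟩
    exact ⟨AddSubgroup.add_mem _ hx hy, by rw [map_add, hx', hy', smul_add]⟩
  zero_mem' := ⟨AddSubgroup.zero_mem _, by rw [map_zero, smul_zero]⟩
  neg_mem' := by
    rintro x ⟨hx, hx'⟩
    exact ⟨AddSubgroup.neg_mem _ hx, by rw [map_neg, hx', smul_neg]⟩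

theorem exists_signPart_ne_bot {V : Type*} [AddCommGroup V] (w : V →+ V) (hww : ∀ x, w (w x) = x)
    (X : AddSubgroup V) (hw : ∀ x ∈ X, w x ∈ X) (h : X ≠ ⊥) :
    ∃ ε : ℤ, (ε = 1 ∨ ε = -1) ∧ signPart w X ε ≠ ⊥ := by
  obtain ⟨⟨x, hx⟩, hx0⟩ := AddSubgroup.ne_bot_iff_exists_ne_zero.mp h
  have hx0' : x ≠ 0 := fun h0 => hx0 (Subtype.ext h0)
  by_cases h1 : x + w x = 0
  · refine ⟨-1, Or.inr rfl, fun hbot => hx0' ?_⟩
    have : x ∈ signPart w X (-1) := by
      refine ⟨hx, ?_⟩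
      rw [neg_smul, one_smul]
      exact (neg_eq_of_add_eq_zero_right h1).symm
    rwa [hbot, AddSubgroup.mem_bot] at this
  · refine ⟨1, Or.inl rfl, fun hbot => h1 ?_⟩
    have : x + w x ∈ signPart w X 1 := by
      refine ⟨AddSubgroup.add_mem _ hx (hw x hx), ?_⟩
      rw [map_add, hww, one_smul, add_comm]
    rwa [hbot, AddSubgroup.mem_bot] at this

section Main

variable {p q : ℕ} [Fact p.Prime] {a : ℕ → ℤ} {B : Finset ℕ}
  {E : Type*} [AddCommGroup E] [DistribMulAction GQ E]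
  {V : Type*} [AddCommGroup V] [DistribMulAction GQ V]

/-- **Block MAZ, abstract form.** -/
theorem main_abs (hFD : FrobeniusDensity) (hp2 : p ≠ 2) (hq : q.Prime) (hqp : q ≠ p)
    (hE : FrobMod p a B E)
    (hirr : ∀ U : AddSubgroup E, (∀ σ : GQ, ∀ x ∈ U, σ • x ∈ U) → U = ⊥ ∨ U = ⊤)
    (hdim : ∀ v : E, ∃ u : E, ∀ n : ℤ, u ≠ n • v)
    (hunr : ∀ A : ValuationSubring (AlgebraicClosure ℚ), A.LiesOverPrime q →
      ∀ τ ∈ A.inertiaSubgroupIn ℚ, ∀ x : E, τ • x = x)
    (hpV : ∀ x : V, p • x = 0) (w : V →+ V) (hww : ∀ x, w (w x) = x)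
    (X : AddSubgroup V) (hXw : ∀ x ∈ X, w x ∈ X) (hX0 : X ≠ ⊥)
    (hcopy : ∀ ε : ℤ, signPart w X ε ≠ ⊥ → ∃ ι : E →+ V, Function.Injective ι ∧
      (∀ (σ : GQ) (x : E), ι (σ • x) = σ • ι x) ∧ ∀ x, ι x ∈ signPart w X ε)
    (hGA : ∀ A : ValuationSubring (AlgebraicClosure ℚ), A.LiesOverPrime q → ∀ x ∈ X,
      (∀ τ ∈ A.inertiaSubgroupIn ℚ, τ • x = x) → ∀ φ : GQ, A.IsFrobeniusAt φ q →
        φ • x + q • w x = 0) :
    p ∣ q - 1 ∧ ∃ e : ℤ, (e = 1 ∨ e = -1) ∧
      (∀ A : ValuationSubring (AlgebraicClosure ℚ), A.LiesOverPrime q → ∀ φ : GQ,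
        A.IsFrobeniusAt φ q → ∀ x : E, φ • x = e • x) ∧
      (∀ x ∈ X, w x = (-e) • x) ∧
      (∀ A : ValuationSubring (AlgebraicClosure ℚ), A.LiesOverPrime q → ∀ x ∈ X,
        (∀ τ ∈ A.inertiaSubgroupIn ℚ, τ • x = x) → ∀ φ : GQ, A.IsFrobeniusAt φ q →
          φ • x = e • x) := by
  have hpp : p.Prime := Fact.out
  obtain ⟨ε, hε, hne⟩ := exists_signPart_ne_bot w hww X hXw hX0
  have hεε : ε * ε = 1 := by rcases hε with h | h <;> rw [h] <;> norm_num
  obtain ⟨A₀, φ₀, hA₀, hφ₀⟩ := Fermat.Agent.Lib.Frobenius.exists_frobenius hq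
  -- Frobenius on `E`
  have h0 : ∀ ε' : ℤ, signPart w X ε' ≠ ⊥ → ∀ A : ValuationSubring (AlgebraicClosure ℚ),
      A.LiesOverPrime q → ∀ φ : GQ, A.IsFrobeniusAt φ q → ∀ x : E, φ • x = (-(q * ε') : ℤ) • x := by
    intro ε' hne' A hA φ hφ x
    obtain ⟨ι, hinj, hgal, hι⟩ := hcopy ε' hne'
    apply hinj
    have h2 := hGA A hA (ι x) (hι x).1 (fun τ hτ => by rw [← hgal, hunr A hA τ hτ x]) φ hφ
    rw [(hι x).2, ← hgal] at h2
    rw [map_zsmul, eq_neg_of_add_eq_zero_left h2, neg_smul, mul_smul, natCast_zsmul]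
  -- `q ≡ 1 mod p`
  have hq1 : p ∣ q - 1 := by
    have h1 := dP_of_scalar hFD hp2 hE hirr hdim φ₀ (-(q * ε)) (h0 ε hne A₀ hA₀ φ₀ hφ₀)
    have h2 : dP p φ₀ = (q : ZMod p) := Cyclo.epsK_frobenius p (ZMod p) hq hqp hA₀ hφ₀
    rw [h2] at h1
    have hεε' : (ε : ZMod p) * ε = 1 := by exact_mod_cast congrArg (Int.cast : ℤ → ZMod p) hεε
    have h3 : (q : ZMod p) * ((q : ZMod p) - 1) = 0 := by
      push_cast at h1
      linear_combination (-1 : ZMod p) * h1 - (q : ZMod p) * q * hεε'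
    have h4 : (q : ZMod p) ≠ 0 := by
      rw [Ne, ZMod.natCast_eq_zero_iff]
      intro h5
      exact hqp ((Nat.prime_dvd_prime_iff_eq hpp hq).mp h5).symm
    have h5 := (mul_eq_zero.mp h3).resolve_left h4
    rw [← ZMod.natCast_eq_zero_iff, Nat.cast_sub hq.one_lt.le, Nat.cast_one]
    exact h5
  have hqE : ∀ x : E, q • x = x := fun x => nsmul_eq_self_of_dvd hq.pos hq1 x (hE.tors x)
  have hqV : ∀ x : V, q • x = x := fun x => nsmul_eq_self_of_dvd hq.pos hq1 x (hpV x)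
  have key : ∀ ε' : ℤ, signPart w X ε' ≠ ⊥ → ∀ A : ValuationSubring (AlgebraicClosure ℚ),
      A.LiesOverPrime q → ∀ φ : GQ, A.IsFrobeniusAt φ q → ∀ x : E, φ • x = (-ε') • x := by
    intro ε' hne' A hA φ hφ x
    rw [h0 ε' hne' A hA φ hφ x, neg_smul, neg_smul, mul_smul, natCast_zsmul, hqE]
  have hee : (-ε) * (-ε) = 1 := by rw [neg_mul_neg, hεε]
  -- the other sign does not occur
  have hbot : signPart w X (-ε) = ⊥ := by
    by_contra hne'
    obtain ⟨u, hu⟩ := hdim 0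
    apply hu 0
    rw [smul_zero]
    have h1 := key ε hne A₀ hA₀ φ₀ hφ₀ u
    have h2 := key (-ε) hne' A₀ hA₀ φ₀ hφ₀ u
    rw [h1, neg_neg, neg_smul] at h2
    have h3 : (2 : ℤ) • u = 0 := by
      have h4 : (2 : ℤ) • (ε • u) = 0 := by
        rw [two_smul]
        nth_rewrite 1 [← h2]
        exact neg_add_cancel _
      have h5 : ε • ((2 : ℤ) • (ε • u)) = (2 : ℤ) • u := by
        rw [smul_smul, smul_smul, mul_comm ε 2, mul_assoc, hεε, mul_one]
      rw [← h5, h4, smul_zero]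
    obtain ⟨c, hc⟩ := Nat.odd_iff.mpr (hpp.eq_two_or_odd.resolve_left hp2)
    have h6 := hE.tors u
    have h7 : (2 * c) • u = 0 := by
      rw [mul_comm, mul_smul, ← natCast_zsmul u 2, Nat.cast_ofNat, h3, smul_zero]
    rw [hc, add_smul, one_smul, h7, zero_add] at h6
    exact h6
  have hw : ∀ x ∈ X, w x = (-(-ε)) • x := by
    intro x hx
    have h1 : x + (-ε) • w x ∈ signPart w X (-ε) := by
      refine ⟨AddSubgroup.add_mem _ hx (AddSubgroup.zsmul_mem _ (hXw x hx) _), ?_⟩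
      rw [map_add, map_zsmul, hww, smul_add, smul_smul, hee, one_smul, add_comm]
    rw [hbot, AddSubgroup.mem_bot] at h1
    have h2 : (-ε) • (x + (-ε) • w x) = 0 := by rw [h1, smul_zero]
    rw [smul_add, smul_smul, hee, one_smul] at h2
    rw [neg_smul (-ε)]
    exact eq_neg_of_add_eq_zero_right h2
  refine ⟨hq1, -ε, ?_, key ε hne, hw, ?_⟩
  · rcases hε with h | h
    · right; rw [h]
    · left; rw [h]; norm_num
  · intro A hA x hx hfix φ hφ
    have h1 := hGA A hA x hx hfix φ hφ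
    rw [hqV, hw x hx, neg_smul] at h1
    exact sub_eq_zero.mp (by rwa [← sub_eq_add_neg] at h1)

end Main

end Fermat.Agent.S43.Maz
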